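import Fermat.Agent.S31.TraceKernel
import Fermat.Agent.S31.Helpers

/-!
# S32 glue, algebra part 2: consequences of absolute irreducibility

`ρ : GaloisRepAdic A`, `A` local, residual representation absolutely irreducible.

* `exists_unit_trace` : there are `g₁ g₂ g₃` with `tr ρ(g₁ g₂ g₃) - tr ρ(g₂ g₁ g₃) ∉ 𝔪`
  (the trilinear form `tr ((XY - YX) Z)` on `M₂(A)` takes the value `1`, and `ρ(G)` spans `M₂(A)`).
* `end_mem_smul_top_of_trace` : if `tr (B ρ(g)) ∈ I` for all `g`, then `B V ⊆ I V`.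
-/

set_option autoImplicit false
set_option linter.unusedSectionVars false

namespace Fermat.Agent.S32

open Module IsLocalRing Fermat.Agent.S31

variable {A : Type} [CommRing A] [IsLocalRing A]

/-- the trilinear form `tr ((XY - YX) Z)` -/
def phi3 (X Y Z : Matrix (Fin 2) (Fin 2) A) : A :=
  (X * Y * Z).trace - (Y * X * Z).trace

theorem phi3_add_left (X X' Y Z : Matrix (Fin 2) (Fin 2) A) :
    phi3 (X + X') Y Z = phi3 X Y Z + phi3 X' Y Z := by
  unfold phi3
  rw [add_mul, add_mul, mul_add, add_mul, Matrix.trace_add, Matrix.trace_add]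
  ring

theorem phi3_smul_left (a : A) (X Y Z : Matrix (Fin 2) (Fin 2) A) :
    phi3 (a • X) Y Z = a * phi3 X Y Z := by
  unfold phi3
  rw [Matrix.smul_mul, Matrix.smul_mul, Matrix.mul_smul, Matrix.smul_mul, Matrix.trace_smul,
    Matrix.trace_smul, smul_eq_mul, smul_eq_mul]
  ring

theorem phi3_add_mid (X Y Y' Z : Matrix (Fin 2) (Fin 2) A) :
    phi3 X (Y + Y') Z = phi3 X Y Z + phi3 X Y' Z := by
  unfold phi3
  rw [mul_add, add_mul, add_mul, add_mul, Matrix.trace_add, Matrix.trace_add]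
  ring

theorem phi3_smul_mid (a : A) (X Y Z : Matrix (Fin 2) (Fin 2) A) :
    phi3 X (a • Y) Z = a * phi3 X Y Z := by
  unfold phi3
  rw [Matrix.mul_smul, Matrix.smul_mul, Matrix.smul_mul, Matrix.smul_mul, Matrix.trace_smul,
    Matrix.trace_smul, smul_eq_mul, smul_eq_mul]
  ring

theorem phi3_add_right (X Y Z Z' : Matrix (Fin 2) (Fin 2) A) :
    phi3 X Y (Z + Z') = phi3 X Y Z + phi3 X Y Z' := by
  unfold phi3
  rw [mul_add, mul_add, Matrix.trace_add, Matrix.trace_add]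
  ring

theorem phi3_smul_right (a : A) (X Y Z : Matrix (Fin 2) (Fin 2) A) :
    phi3 X Y (a • Z) = a * phi3 X Y Z := by
  unfold phi3
  rw [Matrix.mul_smul, Matrix.mul_smul, Matrix.trace_smul, Matrix.trace_smul, smul_eq_mul,
    smul_eq_mul]
  ring

theorem phi3_zero_left (Y Z : Matrix (Fin 2) (Fin 2) A) : phi3 0 Y Z = 0 := by
  unfold phi3; simp

theorem phi3_zero_mid (X Z : Matrix (Fin 2) (Fin 2) A) : phi3 X 0 Z = 0 := by
  unfold phi3; simp

theorem phi3_zero_right (X Y : Matrix (Fin 2) (Fin 2) A) : phi3 X Y 0 = 0 := by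
  unfold phi3; simp

theorem phi3_special :
    phi3 (Matrix.single (0 : Fin 2) (1 : Fin 2) (1 : A)) (Matrix.single (1 : Fin 2) (0 : Fin 2) 1)
      (Matrix.single (0 : Fin 2) (0 : Fin 2) 1) = 1 := by
  unfold phi3
  simp [Matrix.trace_fin_two, Matrix.mul_apply, Fin.sum_univ_two, Matrix.single_apply]

/-- **a unit commutator trace** -/
theorem exists_unit_trace (ρ : GaloisRepAdic A) (habs : ρ.residual.IsAbsolutelyIrreducible) :
    ∃ g₁ g₂ g₃ : AlgebraicClosure ℚ ≃ₐ[ℚ] AlgebraicClosure ℚ,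
      LinearMap.trace A ρ.V (ρ.ρ (g₁ * g₂ * g₃)) - LinearMap.trace A ρ.V (ρ.ρ (g₂ * g₁ * g₃)) ∉
        maximalIdeal A := by
  classical
  by_contra hcon
  have hall : ∀ g₁ g₂ g₃ : AlgebraicClosure ℚ ≃ₐ[ℚ] AlgebraicClosure ℚ,
      LinearMap.trace A ρ.V (ρ.ρ (g₁ * g₂ * g₃)) - LinearMap.trace A ρ.V (ρ.ρ (g₂ * g₁ * g₃)) ∈
        maximalIdeal A := by
    intro g₁ g₂ g₃
    by_contra h
    exact hcon ⟨g₁, g₂, g₃, h⟩
  let b : Basis (Fin 2) A ρ.V := Module.finBasisOfFinrankEq A ρ.V ρ.finrank_eq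
  set R : (AlgebraicClosure ℚ ≃ₐ[ℚ] AlgebraicClosure ℚ) → Matrix (Fin 2) (Fin 2) A :=
    fun g => LinearMap.toMatrix b b (ρ.ρ g) with hR
  have hspan := span_range_toMatrix_eq_top ρ habs b
  have hmem : ∀ X : Matrix (Fin 2) (Fin 2) A, X ∈ Submodule.span A (Set.range R) := by
    intro X
    rw [hR, hspan]
    exact Submodule.mem_top
  have h0 : ∀ g₁ g₂ g₃, phi3 (R g₁) (R g₂) (R g₃) ∈ maximalIdeal A := by
    intro g₁ g₂ g₃
    have := hall g₁ g₂ g₃
    unfold phi3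
    rw [hR]
    simp only
    rw [← LinearMap.toMatrix_mul, ← LinearMap.toMatrix_mul, ← LinearMap.toMatrix_mul,
      ← LinearMap.toMatrix_mul, ← map_mul, ← map_mul, ← map_mul, ← map_mul,
      ← LinearMap.trace_eq_matrix_trace, ← LinearMap.trace_eq_matrix_trace]
    exact this
  have h1 : ∀ X, ∀ g₂ g₃, phi3 X (R g₂) (R g₃) ∈ maximalIdeal A := by
    intro X
    refine Submodule.span_induction (p := fun X _ => ∀ g₂ g₃, phi3 X (R g₂) (R g₃) ∈
      maximalIdeal A) ?_ ?_ ?_ ?_ (hmem X)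
    · rintro _ ⟨g₁, rfl⟩ g₂ g₃
      exact h0 g₁ g₂ g₃
    · intro g₂ g₃
      rw [phi3_zero_left]; exact zero_mem _
    · intro x y _ _ hx hy g₂ g₃
      rw [phi3_add_left]; exact add_mem (hx g₂ g₃) (hy g₂ g₃)
    · intro a x _ hx g₂ g₃
      rw [phi3_smul_left]; exact Ideal.mul_mem_left _ _ (hx g₂ g₃)
  have h2 : ∀ X Y, ∀ g₃, phi3 X Y (R g₃) ∈ maximalIdeal A := by
    intro X Y
    refine Submodule.span_induction (p := fun Y _ => ∀ g₃, phi3 X Y (R g₃) ∈
      maximalIdeal A) ?_ ?_ ?_ ?_ (hmem Y)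
    · rintro _ ⟨g₂, rfl⟩ g₃
      exact h1 X g₂ g₃
    · intro g₃
      rw [phi3_zero_mid]; exact zero_mem _
    · intro x y _ _ hx hy g₃
      rw [phi3_add_mid]; exact add_mem (hx g₃) (hy g₃)
    · intro a x _ hx g₃
      rw [phi3_smul_mid]; exact Ideal.mul_mem_left _ _ (hx g₃)
  have h3 : ∀ X Y Z, phi3 X Y Z ∈ maximalIdeal A := by
    intro X Y Z
    refine Submodule.span_induction (p := fun Z _ => phi3 X Y Z ∈ maximalIdeal A)
      ?_ ?_ ?_ ?_ (hmem Z)
    · rintro _ ⟨g₃, rfl⟩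
      exact h2 X Y g₃
    · rw [phi3_zero_right]; exact zero_mem _
    · intro x y _ _ hx hy
      rw [phi3_add_right]; exact add_mem hx hy
    · intro a x _ hx
      rw [phi3_smul_right]; exact Ideal.mul_mem_left _ _ hx
  have h4 := h3 (Matrix.single (0 : Fin 2) (1 : Fin 2) (1 : A))
    (Matrix.single (1 : Fin 2) (0 : Fin 2) 1) (Matrix.single (0 : Fin 2) (0 : Fin 2) 1)
  rw [phi3_special] at h4
  exact (Ideal.ne_top_iff_one _).mp (Ideal.IsMaximal.ne_top inferInstance) h4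

/-- if `tr (B ρ(g)) ∈ I` for all `g`, then `B` maps `V` into `I V` -/
theorem end_mem_smul_top_of_trace (ρ : GaloisRepAdic A)
    (habs : ρ.residual.IsAbsolutelyIrreducible) (I : Ideal A) (B : Module.End A ρ.V)
    (h : ∀ g : AlgebraicClosure ℚ ≃ₐ[ℚ] AlgebraicClosure ℚ,
      LinearMap.trace A ρ.V (B * ρ.ρ g) ∈ I) (v : ρ.V) :
    B v ∈ I • (⊤ : Submodule A ρ.V) := by
  classical
  let b : Basis (Fin 2) A ρ.V := Module.finBasisOfFinrankEq A ρ.V ρ.finrank_eq
  set Y : Matrix (Fin 2) (Fin 2) A := LinearMap.toMatrix b b B with hY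
  let L : Matrix (Fin 2) (Fin 2) A →ₗ[A] A :=
    (Matrix.traceLinearMap (Fin 2) A A).comp (LinearMap.mulLeft A Y)
  have hL : ∀ Z, L Z = (Y * Z).trace := fun Z => rfl
  have hspan := span_range_toMatrix_eq_top ρ habs b
  have hLI : ∀ Z, L Z ∈ I := by
    intro Z
    have hZ : Z ∈ Submodule.span A (Set.range fun g : AlgebraicClosure ℚ ≃ₐ[ℚ] AlgebraicClosure ℚ =>
        LinearMap.toMatrix b b (ρ.ρ g)) := by
      rw [hspan]; exact Submodule.mem_top
    refine Submodule.span_induction (p := fun Z _ => L Z ∈ I) ?_ ?_ ?_ ?_ hZ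
    · rintro _ ⟨g, rfl⟩
      rw [hL, hY, ← LinearMap.toMatrix_mul, ← LinearMap.trace_eq_matrix_trace]
      exact h g
    · rw [map_zero]; exact zero_mem _
    · intro x y _ _ hx hy
      rw [map_add]; exact add_mem hx hy
    · intro a x _ hx
      rw [map_smul, smul_eq_mul]; exact Ideal.mul_mem_left _ _ hx
  have hentry : ∀ i j, Y i j ∈ I := by
    intro i j
    have h1 := hLI (Matrix.single j i (1 : A))
    rw [hL, Matrix.trace_mul_single] at h1
    simpa using h1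
  -- `B v = Σ_i (Σ_j Y i j * v_j) b_i`
  have hrepr : ∀ i, b.repr (B v) i = ∑ j, Y i j * b.repr v j := by
    intro i
    have := LinearMap.toMatrix_mulVec_repr b b B v
    rw [← this]
    rfl
  rw [← b.sum_repr (B v)]
  refine Submodule.sum_mem _ fun i _ => ?_
  refine Submodule.smul_mem_smul ?_ Submodule.mem_top
  rw [hrepr i]
  exact I.sum_mem fun j _ => Ideal.mul_mem_right _ _ (hentry i j)

end Fermat.Agent.S32
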