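import Fermat.Agent.S32.Key
import Fermat.Agent.W1.RatLocPID

/-!
# S32-D: the frozen statement S32 from the pieces

`s32_isFlatAt_of_pkg` : weak Chebotarev + `StmtSubquot` (S32-B) + `S32Pkg N p` give
`H.ρ.IsFlatAt p` for every Hecke–Galois datum `H` of level `N` away from `S ∋ p`.

Proof. `Finite (ResidueField T)` by `H.residue_surjective`.  For `I` with `T ⧸ I` finite choose
`k` with `𝔪ᵏ ≤ I` (`exists_pow_le_of_finite_quotient`), `n` for `k` by the key lemma `s32_key`;
then every element of `ℤ[G_ℚ]` which kills `J[pⁿ]` kills `V ⧸ I V`, and `StmtSubquot` transports the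
finite flat model of `J[pⁿ]` to `V ⧸ I V`.
-/

set_option autoImplicit false
set_option linter.style.haveILetI false

namespace Fermat.Agent.S32

open ModularCurve Fermat.Agent.ES Fermat.Agent.S31 Fermat.Agent.W1

section local_algebra

variable {T : Type} [CommRing T] [IsLocalRing T] [IsNoetherianRing T]

/-- an ideal of finite index of a noetherian local ring contains a power of the maximal ideal -/
theorem exists_pow_le_of_finite_quotient (I : Ideal T) [Finite (T ⧸ I)] :
    ∃ k : ℕ, IsLocalRing.maximalIdeal T ^ k ≤ I := by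
  apply Ideal.exists_pow_le_of_le_radical_of_fg _ (IsNoetherian.noetherian _)
  rw [Ideal.radical_eq_sInf]
  refine le_sInf ?_
  rintro P ⟨hIP, hP⟩
  haveI := hP
  have hfin : Finite (T ⧸ P) :=
    Finite.of_surjective _ (Ideal.Quotient.factor_surjective hIP)
  have hfield : IsField (T ⧸ P) := Finite.isField_of_domain (T ⧸ P)
  have hmax : P.IsMaximal := Ideal.Quotient.maximal_of_isField P hfield
  rw [IsLocalRing.eq_maximalIdeal hmax]

end local_algebra

section level

variable {A : Type} [CommRing A] [IsLocalRing A] (ρ : GaloisRepAdic A) (I : Ideal A)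

theorem levelAction_mk (σ : GQ) (v : ρ.V) :
    ρ.levelAction I σ (Submodule.Quotient.mk v) = Submodule.Quotient.mk (ρ.ρ σ v) := rfl

theorem levelAction_mul (σ τ : GQ) (y : ρ.V ⧸ (I • (⊤ : Submodule A ρ.V))) :
    ρ.levelAction I (σ * τ) y = ρ.levelAction I σ (ρ.levelAction I τ y) := by
  obtain ⟨v, rfl⟩ := Submodule.Quotient.mk_surjective _ y
  rw [levelAction_mk, levelAction_mk, levelAction_mk, map_mul, Module.End.mul_apply]

theorem levelAction_one (y : ρ.V ⧸ (I • (⊤ : Submodule A ρ.V))) :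
    ρ.levelAction I 1 y = y := by
  obtain ⟨v, rfl⟩ := Submodule.Quotient.mk_surjective _ y
  rw [levelAction_mk, map_one, Module.End.one_apply]

end level

variable {p : ℕ} {N : ℕ} [NeZero N] {S : Finset ℕ}
  {𝒪 : Type} [CommRing 𝒪] [IsDomain 𝒪] [IsDiscreteValuationRing 𝒪]
  [IsAdicComplete (IsLocalRing.maximalIdeal 𝒪) 𝒪]
  {θ : CuspForm.heckeAlgebra N 2 (↑S : Set ℕ) →+* IsLocalRing.ResidueField 𝒪}
  {T : Type} [CommRing T] [IsLocalRing T] [IsNoetherianRing T]
  [IsAdicComplete (IsLocalRing.maximalIdeal T) T] [Algebra 𝒪 T] [IsLocalHom (algebraMap 𝒪 T)]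
  [Module.Finite 𝒪 T] [Module.Free 𝒪 T]

/-- the residue field of `T` is finite -/
theorem finite_residueField [Finite (IsLocalRing.ResidueField 𝒪)]
    (H : CuspForm.HeckeGaloisRepDatum N (↑S : Set ℕ) 𝒪 θ T) :
    Finite (IsLocalRing.ResidueField T) := by
  have hsurj : Function.Surjective (IsLocalRing.ResidueField.map (algebraMap 𝒪 T)) := by
    intro y
    obtain ⟨a, ha⟩ := H.residue_surjective y
    exact ⟨IsLocalRing.residue 𝒪 a, ha⟩
  exact Finite.of_surjective _ hsurj

/-- **S32-D.** The frozen statement S32 from weak Chebotarev, the sub-quotient lemma and the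
package `S32Pkg N p`. -/
theorem s32_isFlatAt_of_pkg (hcheb : Cheb.WeakChebotarev) (hsub : StmtSubquot)
    (hpkg : S32Pkg N p) [Finite (IsLocalRing.ResidueField 𝒪)]
    (hp : p.Prime) (hp𝒪 : (p : 𝒪) ∈ IsLocalRing.maximalIdeal 𝒪)
    (hpS : p ∈ S) (hNS : ∀ q : ℕ, q.Prime → q ∣ N → q ∈ S)
    (H : CuspForm.HeckeGaloisRepDatum N (↑S : Set ℕ) 𝒪 θ T) :
    H.ρ.IsFlatAt p := by
  classical
  haveI : Fact p.Prime := ⟨hp⟩
  obtain ⟨J, _, _, _, hJ, hfaith, hmodel⟩ := hpkg
  rw [sq_isFlatAt_iff]
  refine ⟨finite_residueField H, fun I hI => ?_⟩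
  haveI := hI
  obtain ⟨k, hk⟩ := exists_pow_le_of_finite_quotient I
  obtain ⟨n, hn⟩ := s32_key hcheb hJ hfaith hp hp𝒪 hpS hNS H k
  -- finiteness
  haveI hfinX : Finite ↥(tors J p n) := (hJ.finite n).to_subtype
  haveI hfinY : Finite (H.ρ.V ⧸ (I • (⊤ : Submodule T H.ρ.V))) := by
    have : Module.Finite (T ⧸ I) (H.ρ.V ⧸ (I • (⊤ : Submodule T H.ρ.V))) :=
      Module.Finite.of_restrictScalars_finite T _ _
    exact Module.finite_of_finite (T ⧸ I)
  refine hsub (GaloisRep.ratLocalizedAt p) inferInstance inferInstance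
    ↥(tors J p n) inferInstance hfinX (torsAction J p n)
    (H.ρ.V ⧸ (I • (⊤ : Submodule T H.ρ.V))) inferInstance hfinY
    (fun σ => H.ρ.levelAction I σ) ?_ ?_ ?_ ?_ ?_ ?_ (hmodel n)
  · intro σ x x'
    exact smul_add σ x x'
  · intro σ τ x
    exact mul_smul σ τ x
  · intro σ y y'
    exact map_add _ y y'
  · intro σ τ y
    exact levelAction_mul H.ρ I σ τ y
  · intro y
    exact levelAction_one H.ρ I y
  · intro c hc y
    obtain ⟨v, rfl⟩ := Submodule.Quotient.mk_surjective _ y
    have hc' : ∀ x : J, p ^ n • x = 0 → (c.sum fun g z => z • g • x) = 0 := by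
      intro x hx
      have := congrArg (fun t : ↥(tors J p n) => (t : J)) (hc ⟨x, hx⟩)
      simp only [torsAction, Finsupp.sum, AddSubmonoidClass.coe_finsetSum,
        Submodule.coe_smul_of_tower, coe_smul_tors, ZeroMemClass.coe_zero] at this
      exact this
    have hmem := hn c hc' v
    have hmem' : (c.sum fun g z => z • H.ρ.ρ g v) ∈ I • (⊤ : Submodule T H.ρ.V) :=
      Submodule.smul_mono_left hk hmem
    have e : (c.sum fun g z => z • H.ρ.levelAction I g (Submodule.Quotient.mk v)) =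
        (I • (⊤ : Submodule T H.ρ.V)).mkQ (c.sum fun g z => z • H.ρ.ρ g v) := by
      rw [Finsupp.sum, Finsupp.sum, map_sum]
      refine Finset.sum_congr rfl fun g _ => ?_
      rw [map_zsmul]
      rfl
    rw [e, Submodule.mkQ_apply]
    exact (Submodule.Quotient.mk_eq_zero _).mpr hmem'

end Fermat.Agent.S32
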