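import Mathlib

/-!
# S32-B, abstract part (helper9): annihilator containment gives a subquotient

`G` a group, `X`, `Y` abelian groups (`Y` finite) with additive multiplicative maps `actX`,
`actY` of `G` (`actY 1 = id`); if every element of `ℤ[G]` which kills `X` kills `Y`, then `Y` is
an equivariant quotient of an equivariant subobject `N` of `X ^ (Y × X)`:

* `A := Y → (G →₀ ℤ)`, `Θ : A →+ (Y × X → X)`, `Θ β (y, x) = Σ_g (β y)_g • actX g x`;
* `Ψ : A →+ Y`, `Ψ β = Σ_y Σ_g (β y)_g • actY g y`; `ker Θ ≤ ker Ψ` by the hypothesis;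
* `N := A ⧸ ker Θ`, `ι : N ↪ (Y × X → X)`, `π : N ↠ Y`, both equivariant for the translation
  action on representatives.
-/

set_option autoImplicit false
set_option linter.unusedSectionVars false

namespace Fermat.Agent.S32

section

variable {G : Type} [Group G] {X : Type} [AddCommGroup X] (actX : G → X → X)

/-- the `ℤ[G]`-action of `c` on `x` -/
noncomputable def s32b_app (c : G →₀ ℤ) (x : X) : X := c.sum fun g z => z • actX g x

lemma s32b_app_add (c c' : G →₀ ℤ) (x : X) :
    s32b_app actX (c + c') x = s32b_app actX c x + s32b_app actX c' x := by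
  unfold s32b_app
  exact Finsupp.sum_add_index' (fun g => zero_smul ℤ (actX g x))
    (fun g z z' => add_smul z z' (actX g x))

lemma s32b_app_zero (x : X) : s32b_app actX (0 : G →₀ ℤ) x = 0 := by
  unfold s32b_app
  exact Finsupp.sum_zero_index

lemma s32b_app_single (g : G) (z : ℤ) (x : X) :
    s32b_app actX (Finsupp.single g z) x = z • actX g x := by
  unfold s32b_app
  exact Finsupp.sum_single_index (zero_smul ℤ (actX g x))

/-- translation of `c` by `σ` -/
noncomputable def s32b_shift (σ : G) (c : G →₀ ℤ) : G →₀ ℤ :=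
  Finsupp.mapDomain (fun g => σ * g) c

lemma s32b_app_shift (hadd : ∀ σ x x', actX σ (x + x') = actX σ x + actX σ x')
    (hmul : ∀ σ τ x, actX (σ * τ) x = actX σ (actX τ x)) (σ : G) (c : G →₀ ℤ) (x : X) :
    s32b_app actX (s32b_shift σ c) x = actX σ (s32b_app actX c x) := by
  let f : X →+ X := AddMonoidHom.mk' (actX σ) (hadd σ)
  have hf : ∀ v, f v = actX σ v := fun _ => rfl
  unfold s32b_app s32b_shift
  rw [Finsupp.sum_mapDomain_index (fun g => zero_smul ℤ (actX g x))
    (fun g z z' => add_smul z z' (actX g x))]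
  rw [← hf, map_finsuppSum]
  apply Finsupp.sum_congr
  intro g _
  rw [map_zsmul, hf, hmul]

end

/-- **S32-B, abstract form**: the subquotient datum. -/
theorem s32b_subquot_data {G : Type} [Group G] (X : Type) [AddCommGroup X] (actX : G → X → X)
    (Y : Type) [AddCommGroup Y] [Finite Y] (actY : G → Y → Y)
    (haddX : ∀ σ x x', actX σ (x + x') = actX σ x + actX σ x')
    (hmulX : ∀ σ τ x, actX (σ * τ) x = actX σ (actX τ x))
    (haddY : ∀ σ y y', actY σ (y + y') = actY σ y + actY σ y')
    (hmulY : ∀ σ τ y, actY (σ * τ) y = actY σ (actY τ y))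
    (honeY : ∀ y, actY 1 y = y)
    (hann : ∀ c : G →₀ ℤ, (∀ x : X, (c.sum fun g z => z • actX g x) = 0) →
      ∀ y : Y, (c.sum fun g z => z • actY g y) = 0) :
    ∃ (N : Type) (_ : AddCommGroup N) (actN : G → N → N) (ι : N →+ (Y × X → X)) (π : N →+ Y),
      Function.Injective ι ∧ (∀ σ P, ι (actN σ P) = fun i => actX σ (ι P i)) ∧
      Function.Surjective π ∧ (∀ σ P, π (actN σ P) = actY σ (π P)) := by
  classical
  cases nonempty_fintype Y
  let Θ : (Y → (G →₀ ℤ)) →+ (Y × X → X) :=
    { toFun := fun β yx => s32b_app actX (β yx.1) yx.2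
      map_zero' := by
        funext yx
        exact s32b_app_zero actX yx.2
      map_add' := by
        intro β β'
        funext yx
        exact s32b_app_add actX (β yx.1) (β' yx.1) yx.2 }
  let Ψ : (Y → (G →₀ ℤ)) →+ Y :=
    { toFun := fun β => ∑ y : Y, s32b_app actY (β y) y
      map_zero' := by
        apply Finset.sum_eq_zero
        intro y _
        exact s32b_app_zero actY y
      map_add' := by
        intro β β'
        rw [← Finset.sum_add_distrib]
        apply Finset.sum_congr rfl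
        intro y _
        exact s32b_app_add actY (β y) (β' y) y }
  have hΘ : ∀ β yx, Θ β yx = s32b_app actX (β yx.1) yx.2 := fun _ _ => rfl
  have hΨ : ∀ β, Ψ β = ∑ y : Y, s32b_app actY (β y) y := fun _ => rfl
  have hker : Θ.ker ≤ Ψ.ker := by
    intro β hβ
    rw [AddMonoidHom.mem_ker] at hβ ⊢
    rw [hΨ]
    apply Finset.sum_eq_zero
    intro y _
    refine hann (β y) (fun x => ?_) y
    exact congrFun hβ (y, x)
  let sh : G → (Y → (G →₀ ℤ)) → (Y → (G →₀ ℤ)) := fun σ β y => s32b_shift σ (β y)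
  have hΘsh : ∀ σ β, Θ (sh σ β) = fun yx => actX σ (Θ β yx) := by
    intro σ β
    funext yx
    exact s32b_app_shift actX haddX hmulX σ (β yx.1) yx.2
  have hΨsh : ∀ σ β, Ψ (sh σ β) = actY σ (Ψ β) := by
    intro σ β
    let f : Y →+ Y := AddMonoidHom.mk' (actY σ) (haddY σ)
    have hf : ∀ v, f v = actY σ v := fun _ => rfl
    rw [hΨ, hΨ, ← hf, map_sum]
    apply Finset.sum_congr rfl
    intro y _
    rw [hf]
    exact s32b_app_shift actY haddY hmulY σ (β y) y
  let ι : ((Y → (G →₀ ℤ)) ⧸ Θ.ker) →+ (Y × X → X) := QuotientAddGroup.kerLift Θ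
  have hι : Function.Injective ι := QuotientAddGroup.kerLift_injective Θ
  let π : ((Y → (G →₀ ℤ)) ⧸ Θ.ker) →+ Y := QuotientAddGroup.lift Θ.ker Ψ hker
  let actN : G → ((Y → (G →₀ ℤ)) ⧸ Θ.ker) → ((Y → (G →₀ ℤ)) ⧸ Θ.ker) :=
    fun σ P => QuotientAddGroup.mk (sh σ (Quotient.out P))
  have hout : ∀ P : (Y → (G →₀ ℤ)) ⧸ Θ.ker,
      (QuotientAddGroup.mk (Quotient.out P) : (Y → (G →₀ ℤ)) ⧸ Θ.ker) = P :=
    fun P => Quotient.out_eq' P
  have hιmk : ∀ β, ι (QuotientAddGroup.mk β) = Θ β := fun _ => rfl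
  have hπmk : ∀ β, π (QuotientAddGroup.mk β) = Ψ β := fun _ => rfl
  refine ⟨(Y → (G →₀ ℤ)) ⧸ Θ.ker, inferInstance, actN, ι, π, hι, ?_, ?_, ?_⟩
  · intro σ P
    show ι (QuotientAddGroup.mk (sh σ (Quotient.out P))) = _
    rw [hιmk, hΘsh]
    funext yx
    have h1 : ι P = Θ (Quotient.out P) := by
      conv_lhs => rw [← hout P]
      exact hιmk _
    rw [h1]
  · intro y
    refine ⟨QuotientAddGroup.mk (Pi.single y (Finsupp.single 1 1)), ?_⟩
    rw [hπmk, hΨ, Finset.sum_eq_single y]
    · rw [Pi.single_eq_same, s32b_app_single, one_smul, honeY]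
    · intro y' _ hne
      rw [Pi.single_eq_of_ne hne]
      exact s32b_app_zero actY y'
    · intro h
      exact absurd (Finset.mem_univ y) h
  · intro σ P
    show π (QuotientAddGroup.mk (sh σ (Quotient.out P))) = _
    rw [hπmk, hΨsh]
    have h1 : π P = Ψ (Quotient.out P) := by
      conv_lhs => rw [← hout P]
      exact hπmk _
    rw [h1]

end Fermat.Agent.S32
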