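import Fermat.Agent.S32.Plan
import Fermat.Agent.S32.SubquotAbs

/-!
# S32-B (helper9): annihilator containment gives a finite flat model

`stmtSubquot : StmtSubquot`: if every element of `ℤ[G_ℚ]` which kills `X` kills `Y`, then `Y` is
an equivariant quotient of an equivariant subobject of `X ^ (Y × X)` (`s32b_subquot_data`,
SubquotAbs.lean), so a finite flat model of `X` gives one of `Y`
(`W1.hasFiniteFlatModel_pi`, `W1.hasFiniteFlatModel_of_subquotient`).
-/

set_option autoImplicit false

namespace Fermat.Agent.S32

open Fermat.Agent.ES Fermat.Agent.W1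

/-- **S32-B**. -/
theorem stmtSubquot : StmtSubquot := by
  intro R _ _ X _ _ actX Y _ _ actY haddX hmulX haddY hmulY honeY hann hX
  obtain ⟨N, instN, actN, ι, π, hι, hιeq, hπ, hπeq⟩ :=
    s32b_subquot_data (G := GQ) X actX Y actY haddX hmulX haddY hmulY honeY hann
  have hM : HasFiniteFlatModel R (Y × X → X) (fun σ f i => actX σ (f i)) :=
    hasFiniteFlatModel_pi hX (Y × X)
  exact hasFiniteFlatModel_of_subquotient hM actN ι hι hιeq π hπ hπeq

end Fermat.Agent.S32
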