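import Mathlib

/-!
# S32 glue, algebra part 1: the quadratic relation and annihilators

`G` a group acting on a ring `E` through `a : G →* E`; `χ : G → E` central and multiplicative;
`t g := a g + χ g * a g⁻¹` ("the trace of `g`") is assumed to commute with all `a h`.
If `b = Σ c_g g` acts as zero, `Σ c_g a g = 0`, then `D := Σ c_g t g` satisfies

* `s32_D_eq`      : `D = Σ c_g χ g a g⁻¹`,
* `s32_D_mul_comm` : `D * a g * a h = D * a h * a g`,
* `s32_D_mul_t_sub` : `D * (t (g h g') - t (h g g')) = 0`.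
-/

set_option autoImplicit false

namespace Fermat.Agent.S32

variable {E : Type*} [Ring E] {G : Type*} [Group G]

section

variable (a : G →* E) (χ : G → E) (t : G → E)

/-- the hypotheses on `(a, χ, t)` -/
structure QuadRel : Prop where
  chi_one : χ 1 = 1
  chi_mul : ∀ g h, χ (g * h) = χ g * χ h
  chi_comm : ∀ g (e : E), χ g * e = e * χ g
  t_eq : ∀ g, t g = a g + χ g * a g⁻¹
  t_comm : ∀ g h, t g * a h = a h * t g

variable {a χ t}

theorem QuadRel.a_inv_mul (_h : QuadRel a χ t) (g : G) : a g⁻¹ * a g = 1 := by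
  rw [← map_mul, inv_mul_cancel, map_one]

theorem QuadRel.a_mul_inv (_h : QuadRel a χ t) (g : G) : a g * a g⁻¹ = 1 := by
  rw [← map_mul, mul_inv_cancel, map_one]

theorem QuadRel.chi_inv_mul (h : QuadRel a χ t) (g : G) : χ g⁻¹ * χ g = 1 := by
  rw [← h.chi_mul, inv_mul_cancel, h.chi_one]

theorem QuadRel.chi_mul_inv (h : QuadRel a χ t) (g : G) : χ g * χ g⁻¹ = 1 := by
  rw [← h.chi_mul, mul_inv_cancel, h.chi_one]

/-- `D = Σ c_g t g` -/
def dSum (t : G → E) (c : G →₀ ℤ) : E := c.sum fun g z => z • t g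

theorem dSum_comm (h : QuadRel a χ t) (c : G →₀ ℤ) (g : G) :
    dSum t c * a g = a g * dSum t c := by
  unfold dSum Finsupp.sum
  rw [Finset.sum_mul, Finset.mul_sum]
  refine Finset.sum_congr rfl fun x _ => ?_
  rw [smul_mul_assoc, mul_smul_comm, h.t_comm]

/-- if `Σ c_g a g = 0` then `D = Σ c_g χ g a g⁻¹` -/
theorem s32_D_eq (h : QuadRel a χ t) (c : G →₀ ℤ) (hb : (c.sum fun g z => z • a g) = 0) :
    dSum t c = c.sum fun g z => z • (χ g * a g⁻¹) := by
  have h1 : dSum t c = (c.sum fun g z => z • a g) + c.sum fun g z => z • (χ g * a g⁻¹) := by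
    unfold dSum Finsupp.sum
    rw [← Finset.sum_add_distrib]
    refine Finset.sum_congr rfl fun x _ => ?_
    dsimp only
    rw [h.t_eq, smul_add]
  rw [h1, hb, zero_add]

/-- the shifted sum: `Σ c_x t (g⁻¹ x) = χ g⁻¹ * D * a g` when `Σ c_x a x = 0` -/
theorem s32_shift (h : QuadRel a χ t) (c : G →₀ ℤ) (hb : (c.sum fun g z => z • a g) = 0) (g : G) :
    (c.sum fun x z => z • t (g⁻¹ * x)) = χ g⁻¹ * dSum t c * a g := by
  have h1 : (c.sum fun x z => z • t (g⁻¹ * x)) =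
      a g⁻¹ * (c.sum fun x z => z • a x) +
        χ g⁻¹ * (c.sum fun x z => z • (χ x * a x⁻¹)) * a g := by
    unfold Finsupp.sum
    rw [Finset.mul_sum, Finset.mul_sum, Finset.sum_mul, ← Finset.sum_add_distrib]
    refine Finset.sum_congr rfl fun x _ => ?_
    dsimp only
    rw [h.t_eq, smul_add, mul_smul_comm, mul_smul_comm, smul_mul_assoc, map_mul, h.chi_mul,
      mul_inv_rev, inv_inv, map_mul]
    congr 1
    rw [mul_assoc, mul_assoc, mul_assoc]
  rw [h1, hb, mul_zero, zero_add, ← s32_D_eq h c hb]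

/-- `D * a g` commutes with every `a h` -/
theorem s32_D_mul_central (h : QuadRel a χ t) (c : G →₀ ℤ)
    (hb : (c.sum fun g z => z • a g) = 0) (g g' : G) :
    dSum t c * a g * a g' = a g' * (dSum t c * a g) := by
  -- the shifted sum is a sum of `t`'s, hence commutes with `a g'`
  have h1 : (c.sum fun x z => z • t (g⁻¹ * x)) * a g' =
      a g' * (c.sum fun x z => z • t (g⁻¹ * x)) := by
    unfold Finsupp.sum
    rw [Finset.sum_mul, Finset.mul_sum]
    refine Finset.sum_congr rfl fun x _ => ?_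
    rw [smul_mul_assoc, mul_smul_comm, h.t_comm]
  rw [s32_shift h c hb g] at h1
  have h2 : χ g * (χ g⁻¹ * dSum t c * a g * a g') = χ g * (a g' * (χ g⁻¹ * dSum t c * a g)) := by
    rw [h1]
  have e1 : χ g * (χ g⁻¹ * dSum t c * a g * a g') = dSum t c * a g * a g' := by
    rw [← mul_assoc, ← mul_assoc, ← mul_assoc, h.chi_mul_inv, one_mul]
  have e2 : χ g * (a g' * (χ g⁻¹ * dSum t c * a g)) = a g' * (dSum t c * a g) := by
    rw [h.chi_comm g, mul_assoc (a g'), ← h.chi_comm g, ← mul_assoc (χ g), ← mul_assoc (χ g),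
      h.chi_mul_inv, one_mul]
  rw [e1, e2] at h2
  exact h2

/-- `D` kills the commutators -/
theorem s32_D_mul_comm (h : QuadRel a χ t) (c : G →₀ ℤ)
    (hb : (c.sum fun g z => z • a g) = 0) (g g' : G) :
    dSum t c * a g * a g' = dSum t c * a g' * a g := by
  rw [s32_D_mul_central h c hb g g', ← mul_assoc, ← dSum_comm h c g']

/-- **the annihilator lemma**: `D * (t (g h g') - t (h g g')) = 0` -/
theorem s32_D_mul_t_sub (h : QuadRel a χ t) (c : G →₀ ℤ)
    (hb : (c.sum fun g z => z • a g) = 0) (g₁ g₂ g₃ : G) :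
    dSum t c * (t (g₁ * g₂ * g₃) - t (g₂ * g₁ * g₃)) = 0 := by
  set D := dSum t c with hD
  have hc := s32_D_mul_comm h c hb
  have hDc := dSum_comm h c
  have hχ : χ (g₁ * g₂ * g₃) = χ (g₂ * g₁ * g₃) := by
    rw [h.chi_mul, h.chi_mul, h.chi_mul, h.chi_mul]
    congr 1
    have := h.chi_comm g₁ (χ g₂)
    exact this
  rw [h.t_eq, h.t_eq, ← hχ]
  have e1 : D * (a (g₁ * g₂ * g₃) + χ (g₁ * g₂ * g₃) * a (g₁ * g₂ * g₃)⁻¹ -
      (a (g₂ * g₁ * g₃) + χ (g₁ * g₂ * g₃) * a (g₂ * g₁ * g₃)⁻¹)) =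
      (D * a g₁ * a g₂ - D * a g₂ * a g₁) * a g₃ +
        χ (g₁ * g₂ * g₃) * (a g₃⁻¹ * (D * a g₂⁻¹ * a g₁⁻¹ - D * a g₁⁻¹ * a g₂⁻¹)) := by
    have hD3 : a g₃⁻¹ * D = D * a g₃⁻¹ := (hDc g₃⁻¹).symm
    rw [map_mul, map_mul, map_mul, map_mul, mul_inv_rev, mul_inv_rev, mul_inv_rev, mul_inv_rev,
      map_mul, map_mul, map_mul, map_mul]
    have hx : ∀ e : E, D * (χ (g₁ * g₂ * g₃) * e) = χ (g₁ * g₂ * g₃) * (D * e) := by
      intro e
      rw [← mul_assoc, ← h.chi_comm, mul_assoc]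
    rw [mul_sub, mul_add, mul_add, hx, hx, mul_sub, mul_sub, sub_mul]
    have e3 : ∀ x y : E, a g₃⁻¹ * (D * x * y) = D * (a g₃⁻¹ * (x * y)) := by
      intro x y
      rw [mul_assoc D, ← mul_assoc (a g₃⁻¹), hD3, mul_assoc]
    rw [e3, e3]
    simp only [mul_assoc]
    abel
  rw [e1, hc g₁ g₂, sub_self, zero_mul, zero_add, hc g₂⁻¹ g₁⁻¹, sub_self, mul_zero, mul_zero]

end

end Fermat.Agent.S32
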