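import Fermat.Agent.S31.Reduction
import Fermat.Agent.S32.Algebra

/-!
# S32 glue, part 2: the `pⁿ`-torsion of the Eichler–Shimura package as a `G_ℚ × Hecke`-module

* `tors J p n` : `J[pⁿ]` as a Hecke submodule, with its Galois action `torsGalois`;
* `galEnd`, `heckeEnd` : the two actions as homomorphisms to `Module.End ℤ (J[pⁿ])`;
* `quadRel` : for Frobenius data `g = τ_g ^ {m_g}` on a field `F` of definition of `J[pⁿ]`
  containing `μ_{pⁿ}`, the triple `(galEnd, ℓ_g ^ {m_g}, heckeEnd (s_{m_g}(T_{ℓ_g}, ℓ_g)))`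
  satisfies the hypotheses `QuadRel` of `Algebra.lean`.
-/

set_option autoImplicit false
set_option linter.unusedSectionVars false

namespace Fermat.Agent.S32

open ModularCurve Fermat.Agent.ES Fermat.Agent.S31

variable (J : Type) [AddCommGroup J] [Module HeckeAlg J] [DistribMulAction GQ J] (p n : ℕ)

/-- `J[pⁿ]` as a Hecke submodule -/
def tors : Submodule HeckeAlg J where
  carrier := {x | p ^ n • x = 0}
  zero_mem' := smul_zero _
  add_mem' := by
    intro x y hx hy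
    show p ^ n • (x + y) = 0
    rw [smul_add, hx, hy, add_zero]
  smul_mem' := by
    intro t x hx
    show p ^ n • (t • x) = 0
    rw [smul_comm, hx, smul_zero]

variable {J p n}

theorem mem_tors {x : J} : x ∈ tors J p n ↔ p ^ n • x = 0 := Iff.rfl

variable (J p n)

/-- the Galois action on `J[pⁿ]` -/
noncomputable instance torsGalois : DistribMulAction GQ ↥(tors J p n) where
  smul σ x := ⟨σ • (x : J), torsion_smul n σ x.2⟩
  one_smul x := Subtype.ext (one_smul _ _)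
  mul_smul σ τ x := Subtype.ext (mul_smul _ _ _)
  smul_zero σ := Subtype.ext (smul_zero _)
  smul_add σ x y := Subtype.ext (smul_add _ _ _)

variable {J p n}

@[simp] theorem coe_smul_tors (σ : GQ) (x : ↥(tors J p n)) :
    ((σ • x : ↥(tors J p n)) : J) = σ • (x : J) := rfl

@[simp] theorem coe_hecke_smul_tors (t : HeckeAlg) (x : ↥(tors J p n)) :
    ((t • x : ↥(tors J p n)) : J) = t • (x : J) := rfl

theorem pow_smul_tors (x : ↥(tors J p n)) : p ^ n • x = 0 :=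
  Subtype.ext x.2

variable (J p n)

/-- the Galois action as a homomorphism to the endomorphism ring -/
noncomputable def galEnd : GQ →* Module.End ℤ ↥(tors J p n) :=
  DistribMulAction.toModuleEnd ℤ ↥(tors J p n)

/-- the Hecke action as a homomorphism to the endomorphism ring -/
noncomputable def heckeEnd : HeckeAlg →+* Module.End ℤ ↥(tors J p n) :=
  Module.toModuleEnd ℤ ↥(tors J p n)

variable {J p n}

@[simp] theorem galEnd_apply (σ : GQ) (x : ↥(tors J p n)) : galEnd J p n σ x = σ • x := rfl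

@[simp] theorem heckeEnd_apply (t : HeckeAlg) (x : ↥(tors J p n)) : heckeEnd J p n t x = t • x :=
  rfl

/-- `pⁿ = 0` in the endomorphism ring of `J[pⁿ]` -/
theorem natCast_pow_end : ((p ^ n : ℕ) : Module.End ℤ ↥(tors J p n)) = 0 := by
  ext x
  rw [Module.End.natCast_apply, pow_smul_tors, LinearMap.zero_apply]

/-- congruent integers are equal in the endomorphism ring of `J[pⁿ]` -/
theorem natCast_end_eq_of_modEq {a b : ℕ} (h : a ≡ b [MOD p ^ n]) :
    (a : Module.End ℤ ↥(tors J p n)) = (b : Module.End ℤ ↥(tors J p n)) := by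
  obtain ⟨q, hq⟩ := (Nat.modEq_iff_dvd.mp h)
  have h1 : ((b : ℤ) : Module.End ℤ ↥(tors J p n)) - ((a : ℤ) : Module.End ℤ ↥(tors J p n)) =
      (((p ^ n : ℕ) : ℤ) : Module.End ℤ ↥(tors J p n)) * (q : Module.End ℤ ↥(tors J p n)) := by
    rw [← Int.cast_sub, hq, Int.cast_mul]
  rw [Int.cast_natCast, Int.cast_natCast, Int.cast_natCast, natCast_pow_end, zero_mul] at h1
  exact (sub_eq_zero.mp h1).symm

section quad

variable {N : ℕ}

/-- the cyclotomic congruences for Frobenius data -/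
theorem cyclo_mul (hp : p.Prime) {ζ : AlgebraicClosure ℚ} (hζ : IsPrimitiveRoot ζ (p ^ n))
    (F : IntermediateField ℚ (AlgebraicClosure ℚ)) (hζF : ζ ∈ F)
    (ℓ : GQ → ℕ) (A : GQ → ValuationSubring (AlgebraicClosure ℚ)) (τ : GQ → GQ) (m : GQ → ℕ)
    (hℓ : ∀ g, (ℓ g).Prime) (hℓp : ∀ g, ℓ g ≠ p) (hA : ∀ g, (A g).LiesOverPrime (ℓ g))
    (hτ : ∀ g, (A g).IsFrobeniusAt (τ g) (ℓ g))
    (hg : ∀ g, ∀ a ∈ F, ((τ g) ^ (m g)) a = g a) :
    (∀ g, g ζ = ζ ^ (ℓ g ^ m g)) ∧ (ℓ 1 ^ m 1 ≡ 1 [MOD p ^ n]) ∧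
      ∀ g h, ℓ (g * h) ^ m (g * h) ≡ ℓ g ^ m g * ℓ h ^ m h [MOD p ^ n] := by
  have hM0 : p ^ n ≠ 0 := pow_ne_zero n hp.ne_zero
  have hζ1 : ζ ^ (p ^ n) = 1 := hζ.pow_eq_one
  have key : ∀ g, g ζ = ζ ^ (ℓ g ^ m g) := by
    intro g
    rw [← hg g ζ hζF]
    exact frob_pow_rootOfUnity (A g)
      (natCast_pow_not_mem_nonunits (A g) hp (hℓ g) (hℓp g) (hA g) n) hM0 (hτ g) hζ1 (m g)
  have hmod : ∀ a b : ℕ, ζ ^ a = ζ ^ b → a ≡ b [MOD p ^ n] := by
    intro a b hab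
    have h6 := (hζ.isOfFinOrder hM0).pow_eq_pow_iff_modEq.mp hab
    rw [← hζ.eq_orderOf] at h6
    exact h6
  refine ⟨key, ?_, ?_⟩
  · apply hmod
    rw [← key 1, pow_one, AlgEquiv.one_apply]
  · intro g h
    apply hmod
    rw [← key (g * h), AlgEquiv.mul_apply, key h, map_pow, key g, ← pow_mul]

/-- **the quadratic relation on `J[pⁿ]`** -/
theorem quadRel (hJ : ESDataInf N p J) (hp : p.Prime) {ζ : AlgebraicClosure ℚ}
    (hζ : IsPrimitiveRoot ζ (p ^ n))
    (F : IntermediateField ℚ (AlgebraicClosure ℚ)) (hζF : ζ ∈ F)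
    (hF : ∀ σ : GQ, (∀ a ∈ F, σ a = a) → ∀ x : J, p ^ n • x = 0 → σ • x = x)
    (ℓ : GQ → ℕ) (A : GQ → ValuationSubring (AlgebraicClosure ℚ)) (τ : GQ → GQ) (m : GQ → ℕ)
    (hℓ : ∀ g, (ℓ g).Prime) (hℓNp : ∀ g, ¬ ℓ g ∣ N * p) (hA : ∀ g, (A g).LiesOverPrime (ℓ g))
    (hτ : ∀ g, (A g).IsFrobeniusAt (τ g) (ℓ g))
    (hg : ∀ g, ∀ a ∈ F, ((τ g) ^ (m g)) a = g a) :
    QuadRel (galEnd J p n) (fun g => ((ℓ g ^ m g : ℕ) : Module.End ℤ ↥(tors J p n)))
      (fun g => heckeEnd J p n (lucasS (heckeGen ⟨ℓ g, hℓ g⟩) (ℓ g : HeckeAlg) (m g))) := by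
  have hℓp : ∀ g, ℓ g ≠ p := by
    intro g h
    exact hℓNp g (h ▸ dvd_mul_left _ _)
  obtain ⟨-, h1, hmul⟩ := cyclo_mul hp hζ F hζF ℓ A τ m hℓ hℓp hA hτ hg
  refine ⟨?_, ?_, ?_, ?_, ?_⟩
  · show ((ℓ 1 ^ m 1 : ℕ) : Module.End ℤ ↥(tors J p n)) = 1
    rw [natCast_end_eq_of_modEq h1, Nat.cast_one]
  · intro g h
    show ((ℓ (g * h) ^ m (g * h) : ℕ) : Module.End ℤ ↥(tors J p n)) = _
    rw [natCast_end_eq_of_modEq (hmul g h), Nat.cast_mul]
  · intro g e
    exact Nat.cast_comm _ _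
  · intro g
    ext x
    have := lucas_galois hJ n F hF (hℓ g) (hℓNp g) (hA g) (hτ g) (m g) g (hg g) x.2
    simp only [heckeEnd_apply, coe_hecke_smul_tors, LinearMap.add_apply, galEnd_apply,
      coe_smul_tors, Module.End.mul_apply, Module.End.natCast_apply, Submodule.coe_add,
      Submodule.coe_smul_of_tower]
    exact this.symm
  · intro g h
    ext x
    simp only [Module.End.mul_apply, heckeEnd_apply, galEnd_apply, coe_smul_tors,
      coe_hecke_smul_tors]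
    exact (hJ.smul_comm h _ _).symm

end quad

end Fermat.Agent.S32
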