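import Fermat.Agent.S32.Plan
import Fermat.Agent.ES.JOfUnif
import Fermat.Agent.ES.TorsionUnifProved
import Fermat.Agent.W1.RatLocPID

/-!
# S32-C: transport of the finite flat models from `J₀(N)[pᵏ]` to the `pⁿ`-torsion of `PDiv N p`

`PDiv N p ⊂ JZero N` is the `p`-divisible part of the `p`-power torsion (the module of the faithful
Eichler–Shimura package).  Its `pⁿ`-torsion embeds `G_ℚ`-equivariantly into
`torsionBy ℤ (JZero N) (pⁿ)`, which is finite (`ES.jFinite_of_torsionUnif`); so a finite flat model
of the latter gives one of the former (`W1.hasFiniteFlatModel_of_injective`).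
-/

set_option autoImplicit false

namespace Fermat.Agent.S32

open ModularCurve Fermat.Agent.ES Fermat.Agent.S31 Fermat.Agent.W1

/-- `J₀(N)[pᵏ]` is finite. -/
theorem s32c_finite (N p : ℕ) [NeZero N] (hp : p.Prime) (k : ℕ) :
    Finite ↥(Submodule.torsionBy ℤ (JZero N) ((p : ℤ) ^ k)) := by
  have h : JFinite N (p ^ k) :=
    jFinite_of_torsionUnif (pow_ne_zero k hp.ne_zero)
      (torsionUnif_proved N (p ^ k) (pow_pos hp.pos k))
  have hset : ((Submodule.torsionBy ℤ (JZero N) ((p : ℤ) ^ k) : Submodule ℤ (JZero N)) :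
      Set (JZero N)) = {x : JZero N | (p ^ k) • x = 0} := by
    ext x
    rw [SetLike.mem_coe, Submodule.mem_torsionBy_iff, Set.mem_setOf_eq]
    have e : ((p : ℤ) ^ k) • x = (p ^ k) • x := by
      rw [← natCast_zsmul]
      push_cast
      rfl
    rw [e]
  have hfin : ((Submodule.torsionBy ℤ (JZero N) ((p : ℤ) ^ k) : Submodule ℤ (JZero N)) :
      Set (JZero N)).Finite := by
    rw [hset]
    exact h
  exact hfin.to_subtype

/-- **S32-C**. -/
theorem stmtTransport : StmtTransport := by
  intro N p _ hp hM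
  letI := pDivModule N p
  letI := pDivGalois N p
  intro n
  haveI : Fact p.Prime := ⟨hp⟩
  haveI := Fermat.Agent.S28.ratLoc_isFractionRing p
  haveI := Fermat.Agent.W1.ratLoc_isPrincipalIdealRing p
  haveI : Finite ↥(Submodule.torsionBy ℤ (JZero N) ((p : ℤ) ^ n)) := s32c_finite N p hp n
  -- the inclusion
  let ι : ↥(tors (PDiv N p) p n) →+ ↥(Submodule.torsionBy ℤ (JZero N) ((p : ℤ) ^ n)) :=
    { toFun := fun x => ⟨((x : PDiv N p) : JZero N), by
        rw [Submodule.mem_torsionBy_iff]
        have hx : p ^ n • (x : PDiv N p) = 0 := x.2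
        have hx' : (p ^ n) • ((x : PDiv N p) : JZero N) = 0 := by
          rw [← AddSubgroup.coe_nsmul, hx]
          rfl
        have e : ((p : ℤ) ^ n) • ((x : PDiv N p) : JZero N)
            = (p ^ n) • ((x : PDiv N p) : JZero N) := by
          rw [← natCast_zsmul]
          push_cast
          rfl
        rw [e, hx']⟩
      map_zero' := rfl
      map_add' := fun x y => rfl }
  refine hasFiniteFlatModel_of_injective (hM n) ι ?_ ?_
  · intro x y hxy
    have h1 : ((x : PDiv N p) : JZero N) = ((y : PDiv N p) : JZero N) :=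
      congrArg (fun z : ↥(Submodule.torsionBy ℤ (JZero N) ((p : ℤ) ^ n)) => (z : JZero N)) hxy
    exact Subtype.ext (Subtype.ext h1)
  · intro σ x
    rfl

end Fermat.Agent.S32
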