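import Fermat.Agent.S32.OfInputs
import Fermat.Agent.S32.Subquot
import Fermat.Agent.S32.Transport
import Fermat.Agent.INJ.InjAll
import Fermat.Agent.ES.TorsionUnifProved
import Fermat.Agent.Cheb.Final
import Fermat.Agent.W1.S19Final

/-!
# S32 from the two open pieces of S19

`s32_of_s19pieces : W1.StmtModPRS19 → W1.StmtLevelUpS19 → (frozen S32)`.
All other inputs of `s32_of_inputs` are on main: weak Chebotarev, `stmtSubquot` (S32-B, helper9),
`stmtTransport` (S32-C, helper73), `INJ.injAll_stmtINJAll`, `ES.torsionUnif_proved`.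
-/

set_option autoImplicit false

namespace Fermat.Agent.S32

variable {p : ℕ} {N : ℕ} [NeZero N] {S : Finset ℕ}
  {𝒪 : Type} [CommRing 𝒪] [IsDomain 𝒪] [IsDiscreteValuationRing 𝒪]
  [IsAdicComplete (IsLocalRing.maximalIdeal 𝒪) 𝒪]
  {θ : CuspForm.heckeAlgebra N 2 (↑S : Set ℕ) →+* IsLocalRing.ResidueField 𝒪}
  {T : Type} [CommRing T] [IsLocalRing T] [IsNoetherianRing T]
  [IsAdicComplete (IsLocalRing.maximalIdeal T) T] [Algebra 𝒪 T] [IsLocalHom (algebraMap 𝒪 T)]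
  [Module.Finite 𝒪 T] [Module.Free 𝒪 T]

/-- **S32 from the conclusions of S19** (all other inputs are proved). -/
theorem s32_of_s19 
    (hS19 : ∀ (N p : ℕ) [NeZero N] [Fact p.Prime], ¬ p ∣ N → ∀ k : ℕ,
      Fermat.Agent.W1.S19Conclusion N p k)
    [Finite (IsLocalRing.ResidueField 𝒪)]
    (hp : p.Prime) (hp𝒪 : (p : 𝒪) ∈ IsLocalRing.maximalIdeal 𝒪) (hpN : ¬ p ∣ N)
    (hpS : p ∈ S) (hNS : ∀ q : ℕ, q.Prime → q ∣ N → q ∈ S)
    (H : CuspForm.HeckeGaloisRepDatum N (↑S : Set ℕ) 𝒪 θ T) :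
    H.ρ.IsFlatAt p :=
  s32_of_inputs Fermat.Agent.Cheb.weakChebotarev_holds stmtSubquot stmtTransport
    Fermat.Agent.INJ.injAll_stmtINJAll
    (fun N p _ hp => Fermat.Agent.ES.torsionUnif_proved N p hp.pos)
    hS19 hp hp𝒪 hpN hpS hNS H

/-- **S32 from the two open pieces of S19** (GEO-PR at the S19 levels and GEO-LVL). -/
theorem s32_of_s19pieces (hPR : Fermat.Agent.W1.StmtModPRS19)
    (hLvl : Fermat.Agent.W1.StmtLevelUpS19)
    [Finite (IsLocalRing.ResidueField 𝒪)]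
    (hp : p.Prime) (hp𝒪 : (p : 𝒪) ∈ IsLocalRing.maximalIdeal 𝒪) (hpN : ¬ p ∣ N)
    (hpS : p ∈ S) (hNS : ∀ q : ℕ, q.Prime → q ∣ N → q ∈ S)
    (H : CuspForm.HeckeGaloisRepDatum N (↑S : Set ℕ) 𝒪 θ T) :
    H.ρ.IsFlatAt p :=
  s32_of_s19 (fun N p _ _ h k => Fermat.Agent.W1.s19f_final hPR hLvl N p h k)
    hp hp𝒪 hpN hpS hNS H

end Fermat.Agent.S32
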