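import Fermat.Agent.S32.Plan
import Fermat.Agent.S32.KeyAlg

/-!
# S32-A: the key lemma

`s32_trace_mem` : for every `k` there is `n` such that for every `c ∈ ℤ[G_ℚ]` which kills
`J[pⁿ]` one has `Σ c_g tr ρ(g) ∈ 𝔪ᵏ`.
`s32_key` : for every `k` there is `n` with `AnnProp J p n H.ρ (𝔪ᵏ)`.

Proof of `s32_trace_mem`. Choose `n` for `k` by faithfulness, `F/ℚ` finite Galois containing a
field of definition of `J[pⁿ]`, of `ρ mod 𝔪ᵏ` and `μ_{pⁿ}`, and for every `g` Frobenius data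
`g = τ_g ^ {m_g}` on `F` (weak Chebotarev).  With `P_g := s_{m_g}(T_{ℓ_g}, ℓ_g)`:
`tr ρ(g) ≡ π(P_g) mod 𝔪ᵏ`, and on `J[pⁿ]` the operators `P_g` satisfy the quadratic relation
(`quadRel`).  If `c` kills `J[pⁿ]`, then `D := Σ c_g P_g` satisfies `D · (P_{g₁g₂g₃} - P_{g₂g₁g₃}) = 0`
on `J[pⁿ]` (`s32_D_mul_t_sub`), so `π(D) · π(P_{g₁g₂g₃} - P_{g₂g₁g₃}) ∈ pᵏ T`; for suitable
`g₁, g₂, g₃` the second factor is a unit (`exists_unit_trace`).
-/

set_option autoImplicit false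

namespace Fermat.Agent.S32

open ModularCurve Fermat.Agent.ES Fermat.Agent.S31

variable {p : ℕ} {N : ℕ} [NeZero N] {S : Finset ℕ}
  {𝒪 : Type} [CommRing 𝒪] [IsDomain 𝒪] [IsDiscreteValuationRing 𝒪]
  [IsAdicComplete (IsLocalRing.maximalIdeal 𝒪) 𝒪]
  {θ : CuspForm.heckeAlgebra N 2 (↑S : Set ℕ) →+* IsLocalRing.ResidueField 𝒪}
  {T : Type} [CommRing T] [IsLocalRing T] [IsNoetherianRing T]
  [IsAdicComplete (IsLocalRing.maximalIdeal T) T] [Algebra 𝒪 T] [IsLocalHom (algebraMap 𝒪 T)]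
  [Module.Finite 𝒪 T] [Module.Free 𝒪 T]
  {J : Type} [AddCommGroup J] [Module HeckeAlg J] [DistribMulAction GQ J]

/-- **S32-A, trace form.** -/
theorem s32_trace_mem (hcheb : Cheb.WeakChebotarev) (hJ : ESDataInf N p J)
    (hfaith : ESFaith N p J) (hp : p.Prime)
    (hp𝒪 : (p : 𝒪) ∈ IsLocalRing.maximalIdeal 𝒪) (hpS : p ∈ S)
    (hNS : ∀ q : ℕ, q.Prime → q ∣ N → q ∈ S)
    (H : CuspForm.HeckeGaloisRepDatum N (↑S : Set ℕ) 𝒪 θ T) (k : ℕ) :
    ∃ n : ℕ, ∀ c : GQ →₀ ℤ,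
      (∀ x : J, p ^ n • x = 0 → (c.sum fun g z => z • g • x) = 0) →
        (c.sum fun g z => z • LinearMap.trace T H.ρ.V (H.ρ.ρ g)) ∈
          IsLocalRing.maximalIdeal T ^ k := by
  classical
  rcases Nat.eq_zero_or_pos k with rfl | hkpos
  · refine ⟨0, fun c _ => ?_⟩
    rw [pow_zero, Ideal.one_eq_top]
    exact Submodule.mem_top
  -- the primes outside `S` are good
  have hgoodN : ∀ r : ℕ, r.Prime → r ∉ S → ¬ r ∣ N := fun r hr hrS h => hrS (hNS r hr h)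
  have hgood : ∀ r : ℕ, r.Prime → r ∉ S → ¬ r ∣ N * p := by
    intro r hr hrS h
    rcases (Nat.Prime.dvd_mul hr).mp h with h | h
    · exact hrS (hNS r hr h)
    · have : r = p := (Nat.prime_dvd_prime_iff_eq hr hp).mp h
      exact hrS (this ▸ hpS)
  set Sg : Set Nat.Primes := outsideVars (↑S : Set ℕ) with hSgdef
  have hSg : Sg ⊆ goodPrimes N p := fun r hr => hgood r r.2 hr
  have hSg' : ∀ r ∈ Sg, ¬ (r : ℕ) ∣ N ∧ (r : ℕ) ∉ (↑S : Set ℕ) := fun r hr =>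
    ⟨hgoodN r r.2 hr, hr⟩
  obtain ⟨n, hn⟩ := hfaith Sg hSg k
  refine ⟨n, ?_⟩
  -- the fields
  obtain ⟨E, hEfin, hE⟩ := exists_common_field hJ n
  obtain ⟨L, hLfin, hL⟩ := H.ρ.isAdicContinuous k
  have hM0 : p ^ n ≠ 0 := pow_ne_zero n hp.ne_zero
  have : NeZero ((p ^ n : ℕ) : AlgebraicClosure ℚ) := ⟨Nat.cast_ne_zero.mpr hM0⟩
  obtain ⟨ζ, hζ⟩ := HasEnoughRootsOfUnity.exists_primitiveRoot (AlgebraicClosure ℚ) (p ^ n)
  have hζfin : FiniteDimensional ℚ (IntermediateField.adjoin ℚ {ζ}) :=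
    IntermediateField.adjoin.finiteDimensional ((hζ.isIntegral (Nat.pos_of_ne_zero hM0)).tower_top)
  obtain ⟨F, hFfin, hFgal, hEF, hLF, hζF⟩ :=
    exists_galois_hull E L (IntermediateField.adjoin ℚ {ζ})
  have hζF' : ζ ∈ F := hζF (IntermediateField.mem_adjoin_simple_self ℚ ζ)
  have hF : ∀ σ : GQ, (∀ a ∈ F, σ a = a) → ∀ x : J, p ^ n • x = 0 → σ • x = x :=
    fun σ h => hE σ fun a ha => h a (hEF ha)
  -- Frobenius data for every `g`
  choose ℓ A τ m hℓ hℓS hA hτ hg using fun g : GQ => hcheb F S g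
  have hℓS' : ∀ g, ℓ g ∉ (↑S : Set ℕ) := fun g => hℓS g
  have hQ := quadRel hJ hp hζ F hζF' hF ℓ A τ m hℓ (fun g => hgood (ℓ g) (hℓ g) (hℓS g)) hA hτ hg
  -- the Hecke polynomials `P g`
  set P : GQ → HeckeAlg := fun g => lucasS (heckeGen ⟨ℓ g, hℓ g⟩) (ℓ g : HeckeAlg) (m g) with hP
  have hPsupp : ∀ g, P g ∈ MvPolynomial.supported ℤ Sg := by
    intro g
    refine lucasS_mem_subalgebra _ ?_ (natCast_mem _ (ℓ g)) (m g)
    exact (MvPolynomial.X_mem_supported (R := ℤ)).mpr (hℓS' g)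
  -- values in `T`
  have hval : ∀ g, H.π (evalS N (↑S : Set ℕ) (P g)) =
      lucasS (H.π (CuspForm.heckeAlgebra.T (hℓ g) (hgoodN (ℓ g) (hℓ g) (hℓS g)) (hℓS' g)))
        (ℓ g : T) (m g) := by
    intro g
    have := lucasS_map (H.π.comp (evalS N (↑S : Set ℕ)).toRingHom) (heckeGen ⟨ℓ g, hℓ g⟩)
      (ℓ g : HeckeAlg) (m g)
    simp only [RingHom.comp_apply, AlgHom.toRingHom_eq_coe, RingHom.coe_coe, map_natCast] at this
    rw [hP]
    simp only
    rw [this, evalS_heckeGen (hℓ g) (hgoodN (ℓ g) (hℓ g) (hℓS g)) (hℓS' g)]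
  -- the trace congruences
  have htr : ∀ g, LinearMap.trace T H.ρ.V (H.ρ.ρ g) - H.π (evalS N (↑S : Set ℕ) (P g)) ∈
      IsLocalRing.maximalIdeal T ^ k := by
    intro g
    have h1 : LinearMap.trace T H.ρ.V (H.ρ.ρ (τ g ^ m g)) =
        lucasS (H.π (CuspForm.heckeAlgebra.T (hℓ g) (hgoodN (ℓ g) (hℓ g) (hℓS g)) (hℓS' g)))
          (ℓ g : T) (m g) := by
      rw [map_pow]
      exact trace_pow_eq_lucasS H.ρ.finrank_eq (H.ρ.ρ (τ g)) _ _
        (H.charpoly_frob (ℓ g) (hℓ g) (hgoodN (ℓ g) (hℓ g) (hℓS g)) (hℓS' g) (A g) (hA g)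
          (τ g) (hτ g)) (m g)
    have hc1 := trace_congr_of_agree H.ρ k L hL (τ g ^ m g) g fun a ha => hg g a (hLF ha)
    rw [h1, ← hval g] at hc1
    exact hc1
  -- a unit
  obtain ⟨g₁, g₂, g₃, hunit⟩ := exists_unit_trace H.ρ H.residual_absIrr
  set u : HeckeAlg := P (g₁ * g₂ * g₃) - P (g₂ * g₁ * g₃) with hu
  have hle : IsLocalRing.maximalIdeal T ^ k ≤ IsLocalRing.maximalIdeal T :=
    Ideal.pow_le_self hkpos.ne'
  have huunit : IsUnit (H.π (evalS N (↑S : Set ℕ) u)) := by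
    rw [← IsLocalRing.notMem_maximalIdeal]
    intro hmem
    apply hunit
    have e : LinearMap.trace T H.ρ.V (H.ρ.ρ (g₁ * g₂ * g₃)) -
        LinearMap.trace T H.ρ.V (H.ρ.ρ (g₂ * g₁ * g₃)) =
        (LinearMap.trace T H.ρ.V (H.ρ.ρ (g₁ * g₂ * g₃)) -
            H.π (evalS N (↑S : Set ℕ) (P (g₁ * g₂ * g₃)))) -
          (LinearMap.trace T H.ρ.V (H.ρ.ρ (g₂ * g₁ * g₃)) -
            H.π (evalS N (↑S : Set ℕ) (P (g₂ * g₁ * g₃)))) +
          H.π (evalS N (↑S : Set ℕ) u) := by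
      rw [hu, map_sub, map_sub]; ring
    rw [e]
    exact add_mem (sub_mem (hle (htr _)) (hle (htr _))) hmem
  -- the main argument
  intro c hc
  set D : HeckeAlg := c.sum fun g z => z • P g with hD
  have hDsupp : D ∈ MvPolynomial.supported ℤ Sg := by
    rw [hD]
    exact Subalgebra.sum_mem _ fun g _ => Subalgebra.zsmul_mem _ (hPsupp g) _
  have husupp : u ∈ MvPolynomial.supported ℤ Sg := sub_mem (hPsupp _) (hPsupp _)
  -- `c` kills `J[pⁿ]`, in the endomorphism ring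
  have hb : (c.sum fun g z => z • galEnd J p n g) = 0 := by
    ext x
    rw [Finsupp.sum, LinearMap.sum_apply]
    have := hc x x.2
    rw [Finsupp.sum] at this
    simp only [LinearMap.smul_apply, galEnd_apply, LinearMap.zero_apply]
    rw [AddSubmonoidClass.coe_finsetSum]
    simp only [Submodule.coe_smul_of_tower, coe_smul_tors, ZeroMemClass.coe_zero]
    exact this
  have hkill0 := s32_D_mul_t_sub hQ c hb g₁ g₂ g₃
  -- translate: `heckeEnd (D * u) = 0`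
  have hdsum : dSum (fun g => heckeEnd J p n (P g)) c = heckeEnd J p n D := by
    unfold dSum
    rw [hD, Finsupp.sum, Finsupp.sum, map_sum]
    refine Finset.sum_congr rfl fun g _ => ?_
    rw [map_zsmul]
  have hkill1 : heckeEnd J p n (D * u) = 0 := by
    rw [map_mul, hu, map_sub, ← hdsum]
    exact hkill0
  have hDkill : ∀ x : J, p ^ n • x = 0 → (D * u) • x = 0 := by
    intro x hx
    have := congrArg (fun f : Module.End ℤ ↥(tors J p n) => ((f ⟨x, hx⟩ : ↥(tors J p n)) : J)) hkill1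
    rw [mul_smul]
    simpa using this
  obtain ⟨s, hs, hDs⟩ := hn (D * u) (mul_mem hDsupp husupp) hDkill
  -- the image of `D * u` in the Hecke algebra is divisible by `pᵏ`
  have hev : evalS N (↑S : Set ℕ) (D * u) = (p : ℤ) ^ k • evalS N (↑S : Set ℕ) s := by
    apply Subtype.ext
    rw [coe_evalS_eq hSg' (mul_mem hDsupp husupp), hDs]
    have := coe_evalS_eq hSg' hs
    rw [Subalgebra.coe_smul, Subalgebra.coe_smul, this]
  have hπmem : H.π (evalS N (↑S : Set ℕ) (D * u)) ∈ IsLocalRing.maximalIdeal T ^ k := by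
    rw [hev, map_zsmul, zsmul_eq_mul, Int.cast_pow, Int.cast_natCast]
    exact Ideal.mul_mem_right _ _ (Ideal.pow_mem_pow (natCast_mem_maximalIdeal hp𝒪) k)
  have hπD : H.π (evalS N (↑S : Set ℕ) D) ∈ IsLocalRing.maximalIdeal T ^ k := by
    rw [map_mul, map_mul] at hπmem
    exact (Ideal.unit_mul_mem_iff_mem _ huunit).mp (by rwa [mul_comm] at hπmem)
  -- conclusion
  have hsum : (c.sum fun g z => z • LinearMap.trace T H.ρ.V (H.ρ.ρ g)) =
      (c.sum fun g z => z • (LinearMap.trace T H.ρ.V (H.ρ.ρ g) -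
        H.π (evalS N (↑S : Set ℕ) (P g)))) + H.π (evalS N (↑S : Set ℕ) D) := by
    rw [hD, Finsupp.sum, Finsupp.sum, Finsupp.sum, map_sum, map_sum, ← Finset.sum_add_distrib]
    refine Finset.sum_congr rfl fun g _ => ?_
    rw [map_zsmul, map_zsmul, smul_sub, sub_add_cancel]
  rw [hsum]
  refine add_mem ?_ hπD
  rw [Finsupp.sum]
  exact Ideal.sum_mem _ fun g _ => by
    rw [zsmul_eq_mul]
    exact Ideal.mul_mem_left _ _ (htr g)

/-- **S32-A.** For every `k` there is `n` such that every element of `ℤ[G_ℚ]` which kills `J[pⁿ]`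
maps `V` into `𝔪ᵏ V`. -/
theorem s32_key (hcheb : Cheb.WeakChebotarev) (hJ : ESDataInf N p J)
    (hfaith : ESFaith N p J) (hp : p.Prime)
    (hp𝒪 : (p : 𝒪) ∈ IsLocalRing.maximalIdeal 𝒪) (hpS : p ∈ S)
    (hNS : ∀ q : ℕ, q.Prime → q ∣ N → q ∈ S)
    (H : CuspForm.HeckeGaloisRepDatum N (↑S : Set ℕ) 𝒪 θ T) (k : ℕ) :
    ∃ n : ℕ, AnnProp J p n H.ρ (IsLocalRing.maximalIdeal T ^ k) := by
  classical
  obtain ⟨n, hn⟩ := s32_trace_mem hcheb hJ hfaith hp hp𝒪 hpS hNS H k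
  refine ⟨n, fun c hc v => ?_⟩
  set B : Module.End T H.ρ.V := c.sum fun g z => z • H.ρ.ρ g with hB
  have hBv : (c.sum fun g z => z • H.ρ.ρ g v) = B v := by
    rw [hB, Finsupp.sum, Finsupp.sum, LinearMap.sum_apply]
    refine Finset.sum_congr rfl fun g _ => ?_
    rw [LinearMap.smul_apply]
  rw [hBv]
  apply end_mem_smul_top_of_trace H.ρ H.residual_absIrr
  intro g₀
  -- the shifted element `c · g₀`
  set c' : GQ →₀ ℤ := Finsupp.mapDomain (fun g => g * g₀) c with hc'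
  have hsum : ∀ {M : Type} [AddCommGroup M] (f : GQ → M),
      (c'.sum fun g z => z • f g) = c.sum fun g z => z • f (g * g₀) := by
    intro M _ f
    rw [hc']
    exact Finsupp.sum_mapDomain_index (fun _ => zero_smul _ _) (fun _ _ _ => add_smul _ _ _)
  have hc'kill : ∀ x : J, p ^ n • x = 0 → (c'.sum fun g z => z • g • x) = 0 := by
    intro x hx
    rw [hsum fun g => g • x]
    have := hc (g₀ • x) (torsion_smul n g₀ hx)
    simpa only [mul_smul] using this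
  have h1 := hn c' hc'kill
  rw [hsum fun g => LinearMap.trace T H.ρ.V (H.ρ.ρ g)] at h1
  have h2 : LinearMap.trace T H.ρ.V (B * H.ρ.ρ g₀) =
      c.sum fun g z => z • LinearMap.trace T H.ρ.V (H.ρ.ρ (g * g₀)) := by
    rw [hB, Finsupp.sum, Finsupp.sum, Finset.sum_mul, map_sum]
    refine Finset.sum_congr rfl fun g _ => ?_
    rw [smul_mul_assoc, map_zsmul, (H.ρ.ρ).map_mul]
  rw [h2]
  exact h1

end Fermat.Agent.S32
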