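import Fermat.Agent.S32.Final
import Fermat.Agent.ES.FaithOfInputs
import Fermat.Agent.W1.S19Glue

/-!
# S32 from the remaining inputs

* `hasFiniteFlatModel_of_s19` : the conclusion of S19 at `(N, p, k)` is a finite flat model of
  `J₀(N)[pᵏ]` (in the sense of `W1/PlanGL.lean`).
* `s32Pkg_of_inputs` : the package `S32Pkg N p` from
  `INJ.StmtINJAll` (G2), `ES.TorsionUnif N p` (G1), the conclusions of S19 and `StmtTransport`.
* `s32_of_inputs` : the frozen S32 from these inputs, weak Chebotarev and `StmtSubquot`.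
-/

set_option autoImplicit false

namespace Fermat.Agent.S32

open ModularCurve Fermat.Agent.ES Fermat.Agent.S31 Fermat.Agent.W1

/-- the conclusion of S19 is a finite flat model of `J₀(N)[pᵏ]` -/
theorem hasFiniteFlatModel_of_s19 (N : ℕ) [NeZero N] (p : ℕ) [Fact p.Prime] (k : ℕ)
    (h : S19Conclusion N p k) :
    HasFiniteFlatModel (GaloisRep.ratLocalizedAt p)
      ↥(Submodule.torsionBy ℤ (JZero N) ((p : ℤ) ^ k)) (torsAct (JZero N) ((p : ℤ) ^ k)) := by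
  obtain ⟨H, i1, i2, h1, h2, h3, e, he1, he2⟩ := h
  exact ⟨H, i1, i2, h1, h2, h3, e, he1, fun σ f g hfg => Subtype.ext (he2 σ f g hfg)⟩

/-- **the package of S32 from the inputs** -/
theorem s32Pkg_of_inputs (hINJ : Fermat.Agent.INJ.StmtINJAll) (htr : StmtTransport)
    {N p : ℕ} [NeZero N] [Fact p.Prime] (hUT : TorsionUnif N p)
    (hS19 : ∀ k : ℕ, S19Conclusion N p k) : S32Pkg N p := by
  have hp : p.Prime := Fact.out
  obtain ⟨μ, h⟩ := hUT
  have hp0 : p ≠ 0 := hp.ne_zero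
  have hm := multData_of_torsionUnifData hp0 h
  refine ⟨PDiv N p, inferInstance, pDivModule N p, pDivGalois N p,
    hm.esDataInf (stmtFiniteLevel N p hp0) (G2.stmtFrob_of_stmtINJAll hINJ N p)
      (G2.stmtUnram_of_stmtINJAll hINJ N p), hm.esFaith hp0, ?_⟩
  exact htr N p hp fun k => hasFiniteFlatModel_of_s19 N p k (hS19 k)

variable {p : ℕ} {N : ℕ} [NeZero N] {S : Finset ℕ}
  {𝒪 : Type} [CommRing 𝒪] [IsDomain 𝒪] [IsDiscreteValuationRing 𝒪]
  [IsAdicComplete (IsLocalRing.maximalIdeal 𝒪) 𝒪]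
  {θ : CuspForm.heckeAlgebra N 2 (↑S : Set ℕ) →+* IsLocalRing.ResidueField 𝒪}
  {T : Type} [CommRing T] [IsLocalRing T] [IsNoetherianRing T]
  [IsAdicComplete (IsLocalRing.maximalIdeal T) T] [Algebra 𝒪 T] [IsLocalHom (algebraMap 𝒪 T)]
  [Module.Finite 𝒪 T] [Module.Free 𝒪 T]

/-- **S32 from its inputs**: weak Chebotarev, `StmtSubquot` (S32-B), `StmtTransport` (S32-C),
`INJ.StmtINJAll` (G2), `ES.TorsionUnif N p` (G1) and the conclusions of S19 at `(N, p)`. -/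
theorem s32_of_inputs (hcheb : Cheb.WeakChebotarev) (hsub : StmtSubquot) (htr : StmtTransport)
    (hINJ : Fermat.Agent.INJ.StmtINJAll)
    (hUT : ∀ (N p : ℕ) [NeZero N], p.Prime → TorsionUnif N p)
    (hS19 : ∀ (N p : ℕ) [NeZero N] [Fact p.Prime], ¬ p ∣ N → ∀ k : ℕ, S19Conclusion N p k)
    [Finite (IsLocalRing.ResidueField 𝒪)]
    (hp : p.Prime) (hp𝒪 : (p : 𝒪) ∈ IsLocalRing.maximalIdeal 𝒪) (hpN : ¬ p ∣ N)
    (hpS : p ∈ S) (hNS : ∀ q : ℕ, q.Prime → q ∣ N → q ∈ S)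
    (H : CuspForm.HeckeGaloisRepDatum N (↑S : Set ℕ) 𝒪 θ T) :
    H.ρ.IsFlatAt p :=
  haveI : Fact p.Prime := ⟨hp⟩
  s32_isFlatAt_of_pkg hcheb hsub
    (s32Pkg_of_inputs hINJ htr (hUT N p hp) (hS19 N p hpN)) hp hp𝒪 hpS hNS H

end Fermat.Agent.S32
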