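import Fermat.Agent.S32.Setup
import Fermat.Agent.W1.SubQuot
import Fermat.Agent.W1.PlanAlg
import Fermat.Agent.ES.TopFaith

/-!
# S32 glue (W1-32): interface — exact statements of the pieces

Target: the frozen S32 (`H.ρ.IsFlatAt p` for a Hecke–Galois datum, `p` odd, `p ∤ N`) from

* weak Chebotarev (DONE, `Cheb.weakChebotarev_holds`),
* `S32Pkg N p` : ONE `G_ℚ × Hecke`-module `J` carrying the faithful `p`-adic Eichler–Shimura
  package (`ES.ESDataInf`, `S31.ESFaith`) AND a finite flat model of every `J[pⁿ]`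
  (the output of WALL 1).

Pieces:

* **S32-A** `s32_key` (file `Key.lean`): for every `k` there is `n` such that every element of
  `ℤ[G_ℚ]` which kills `J[pⁿ]` maps `V` into `𝔪ᵏ V` (`AnnProp`).
  [quadratic relation `g + χ(g) g⁻¹ = s_m(T_ℓ, ℓ)` on `J[pⁿ]` + faithfulness + Burnside;
  `Algebra.lean`, `Setup.lean`]
* **S32-B** `StmtSubquot` (pure algebra, file `Subquot.lean`): `Ann_{ℤ[G]}(X) ⊆ Ann_{ℤ[G]}(Y)`
  ⇒ `Y` is a subquotient of `X ^ (Y × X)` ⇒ a finite flat model of `X` gives one of `Y`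
  (W1-SQ: `hasFiniteFlatModel_pi`, `hasFiniteFlatModel_of_subquotient`).
* **S32-C** `StmtTransport` (file `Transport.lean`): finite flat models of
  `torsionBy ℤ (JZero N) (pᵏ)` (= the output of S19's chain) give finite flat models of the
  `pⁿ`-torsion of `PDiv N p` (the module of the ES package), by `hasFiniteFlatModel_of_injective`.
* **S32-D** (file `Final.lean`): `s32_isFlatAt_of_pkg`, and `Fermat/Agent/S32.lean`.
-/

set_option autoImplicit false

namespace Fermat.Agent.S32

open ModularCurve Fermat.Agent.ES Fermat.Agent.S31 Fermat.Agent.W1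

/-- the action of `G_ℚ` on `J[pⁿ]` as a plain map -/
noncomputable def torsAction (J : Type) [AddCommGroup J] [Module HeckeAlg J] [DistribMulAction GQ J]
    (p n : ℕ) : GQ → ↥(tors J p n) → ↥(tors J p n) :=
  fun σ x => σ • x

/-- The package consumed by S32: the faithful `p`-adic Eichler–Shimura data on a module `J`,
together with a finite flat model of every `J[pⁿ]`. -/
def S32Pkg (N p : ℕ) [NeZero N] : Prop :=
  ∃ (J : Type) (_ : AddCommGroup J) (_ : Module HeckeAlg J) (_ : DistribMulAction GQ J),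
    ESDataInf N p J ∧ ESFaith N p J ∧
      ∀ n : ℕ, HasFiniteFlatModel (GaloisRep.ratLocalizedAt p) ↥(tors J p n) (torsAction J p n)

/-- every element of `ℤ[G_ℚ]` which kills `J[pⁿ]` maps `V` into `I V` -/
def AnnProp (J : Type) [AddCommGroup J] [Module HeckeAlg J] [DistribMulAction GQ J] (p n : ℕ)
    {T : Type} [CommRing T] [IsLocalRing T] (ρ : GaloisRepAdic T) (I : Ideal T) : Prop :=
  ∀ c : GQ →₀ ℤ, (∀ x : J, p ^ n • x = 0 → (c.sum fun g z => z • g • x) = 0) →
    ∀ v : ρ.V, (c.sum fun g z => z • ρ.ρ g v) ∈ I • (⊤ : Submodule T ρ.V)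

/-- **S32-B** (pure algebra): if every element of `ℤ[G_ℚ]` which kills `X` kills `Y`
(`X`, `Y` finite abelian groups with additive actions of `G_ℚ`), then a finite flat model of `X`
gives a finite flat model of `Y`. -/
def StmtSubquot : Prop :=
  ∀ (R : Subring ℚ) (_ : IsPrincipalIdealRing R) (_ : IsFractionRing R ℚ)
    (X : Type) (_ : AddCommGroup X) (_ : Finite X) (actX : GQ → X → X)
    (Y : Type) (_ : AddCommGroup Y) (_ : Finite Y) (actY : GQ → Y → Y),
    (∀ σ x x', actX σ (x + x') = actX σ x + actX σ x') →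
    (∀ σ τ x, actX (σ * τ) x = actX σ (actX τ x)) →
    (∀ σ y y', actY σ (y + y') = actY σ y + actY σ y') →
    (∀ σ τ y, actY (σ * τ) y = actY σ (actY τ y)) →
    (∀ y, actY 1 y = y) →
    (∀ c : GQ →₀ ℤ, (∀ x : X, (c.sum fun g z => z • actX g x) = 0) →
      ∀ y : Y, (c.sum fun g z => z • actY g y) = 0) →
    HasFiniteFlatModel R X actX → HasFiniteFlatModel R Y actY

/-- **S32-C**: transport of the finite flat models from `J₀(N)[pᵏ]` (S19's chain) to the
`pⁿ`-torsion of the module `PDiv N p` of the Eichler–Shimura package. -/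
def StmtTransport : Prop :=
  ∀ (N p : ℕ) [NeZero N], p.Prime →
    (∀ k : ℕ, HasFiniteFlatModel (GaloisRep.ratLocalizedAt p)
      ↥(Submodule.torsionBy ℤ (JZero N) ((p : ℤ) ^ k)) (torsAct (JZero N) ((p : ℤ) ^ k))) →
    letI := pDivModule N p
    letI := pDivGalois N p
    ∀ n : ℕ, HasFiniteFlatModel (GaloisRep.ratLocalizedAt p) ↥(tors (PDiv N p) p n)
      (torsAction (PDiv N p) p n)

end Fermat.Agent.S32
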